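/-
Programme T1B, brick 504 (helper21), abstract part: **occurrence of a system of eigenvalues lifts
along equivariant maps**.

`V` finite-dimensional over a field `k`, `TV` a commuting family of endomorphisms of `V`, `W` any
`k`-vector space with a family `TW`, `α : V →ₗ[k] W` with `α ∘ TV j = TW j ∘ α`.  If some `α v₀ ≠ 0`
is a common eigenvector of the `TW j` with eigenvalues `lam j`, then `V` contains a nonzero common
eigenvector of the `TV j` with the same eigenvalues (`exists_eigenvector_lift`).

Proof: dual occurrence (`ES/LR/DualOcc8.exists_eigenfunctional`, Nakayama) twice: on the range of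
`α` (an eigenvector gives an eigenfunctional, which pulls back to `V`), and on the dual of `V`
(an eigenfunctional of `V` is an eigenvector of the transposed family on `V*`, which gives an
eigenfunctional of `V*`, i.e. an element of `V** = V`).

Mathlib + `ES/LR/DualOcc8` (Mathlib only).
-/
import Mathlib
import Fermat.Agent.ES.LR.DualOcc8

set_option autoImplicit false

namespace Fermat.Agent.T1B.U2Lower21.LiftOcc

open Fermat.Agent.ES.LR.DualOcc8

variable {k : Type*} [Field k] {V : Type*} [AddCommGroup V] [Module k V] [FiniteDimensional k V]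
  {κ : Type*} (TV : κ → Module.End k V) (hTV : ∀ i j, Commute (TV i) (TV j)) (lam : κ → k)

include hTV in
/-- **Occurrence on a functional implies occurrence on a vector** (finite dimension). -/
theorem exists_eigenvector_of_eigenfunctional (ψ : V →ₗ[k] k) (hψ0 : ψ ≠ 0)
    (hψ : ∀ j x, ψ (TV j x) = lam j * ψ x) :
    ∃ v : V, v ≠ 0 ∧ ∀ j, TV j v = lam j • v := by
  classical
  -- the transposed family on the dual
  let T' : κ → Module.End k (Module.Dual k V) := fun j => (TV j).dualMap
  have hT' : ∀ i j, Commute (T' i) (T' j) := by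
    intro i j
    show (TV i).dualMap ∘ₗ (TV j).dualMap = (TV j).dualMap ∘ₗ (TV i).dualMap
    rw [LinearMap.dualMap_comp_dualMap, LinearMap.dualMap_comp_dualMap]
    congr 1
    exact (hTV j i).eq
  have hψ' : ∀ j, T' j ψ = lam j • ψ := by
    intro j
    apply LinearMap.ext
    intro x
    show ψ (TV j x) = (lam j • ψ) x
    rw [hψ, LinearMap.smul_apply, smul_eq_mul]
  obtain ⟨Ψ, hΨ0, hΨ⟩ := exists_eigenfunctional T' hT' lam hψ0 hψ'
  -- `Ψ` is evaluation at a vector
  set v : V := (Module.evalEquiv k V).symm Ψ with hv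
  have hev : ∀ φ : Module.Dual k V, φ v = Ψ φ := fun φ =>
    Module.apply_evalEquiv_symm_apply k V φ Ψ
  refine ⟨v, ?_, fun j => ?_⟩
  · intro h0
    apply hΨ0
    apply LinearMap.ext
    intro φ
    rw [← hev φ, h0, map_zero, LinearMap.zero_apply]
  · rw [← sub_eq_zero, ← Module.forall_dual_apply_eq_zero_iff k]
    intro φ
    have h1 : φ (TV j v) = Ψ (T' j φ) := (hev ((TV j).dualMap φ)).symm ▸ rfl
    rw [map_sub, map_smul, h1, hΨ, hev, smul_eq_mul, sub_self]

variable {W : Type*} [AddCommGroup W] [Module k W] (TW : κ → Module.End k W)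
  (α : V →ₗ[k] W) (hα : ∀ j v, α (TV j v) = TW j (α v))

include hTV hα in
/-- **Occurrence lifts along an equivariant map.** -/
theorem exists_eigenvector_lift (v₀ : V) (hw0 : α v₀ ≠ 0)
    (hw : ∀ j, TW j (α v₀) = lam j • α v₀) :
    ∃ v : V, v ≠ 0 ∧ ∀ j, TV j v = lam j • v := by
  classical
  -- the range of `α`, with the restricted family
  let W' : Submodule k W := LinearMap.range α
  have hstab : ∀ j, ∀ x ∈ W', TW j x ∈ W' := by
    rintro j _ ⟨y, rfl⟩
    exact ⟨TV j y, hα j y⟩
  let T' : κ → Module.End k W' := fun j => (TW j).restrict (hstab j)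
  have hT'apply : ∀ j (y : V), T' j ⟨α y, y, rfl⟩ = ⟨α (TV j y), TV j y, rfl⟩ := by
    intro j y
    apply Subtype.ext
    show TW j (α y) = α (TV j y)
    rw [hα]
  have hT' : ∀ i j, Commute (T' i) (T' j) := by
    intro i j
    apply LinearMap.ext
    rintro ⟨_, y, rfl⟩
    show T' i (T' j ⟨α y, y, rfl⟩) = T' j (T' i ⟨α y, y, rfl⟩)
    rw [hT'apply j y, hT'apply i (TV j y), hT'apply i y, hT'apply j (TV i y)]
    have h := congrArg (fun A : Module.End k V => A y) (hTV i j).eq
    simp only [Module.End.mul_apply] at h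
    exact Subtype.ext (congrArg α h)
  let w : W' := ⟨α v₀, v₀, rfl⟩
  have hw0' : w ≠ 0 := fun h => hw0 (congrArg Subtype.val h)
  have hw' : ∀ j, T' j w = lam j • w := by
    intro j
    apply Subtype.ext
    show TW j (α v₀) = lam j • α v₀
    exact hw j
  obtain ⟨ψ, hψ0, hψ⟩ := exists_eigenfunctional T' hT' lam hw0' hw'
  -- pull back to `V`
  refine exists_eigenvector_of_eigenfunctional TV hTV lam (ψ ∘ₗ α.rangeRestrict) ?_ ?_
  · intro h0
    apply hψ0
    apply LinearMap.ext
    rintro ⟨_, y, rfl⟩
    have := congrArg (fun A : V →ₗ[k] k => A y) h0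
    exact this
  · intro j x
    show ψ (α.rangeRestrict (TV j x)) = lam j * ψ (α.rangeRestrict x)
    rw [← hψ j (α.rangeRestrict x)]
    congr 1
    exact (hT'apply j x).symm

end Fermat.Agent.T1B.U2Lower21.LiftOcc
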