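/-
Programme T1B, brick 504 (helper21): **the `q`-old criterion** (Atkin–Lehner) on the Prelude's cusp
forms, in characteristic `0`.

`q` prime, `q ∤ N`.  A normalised eigenform `g` of level `N q` whose `U_q`-eigenvalue `a = a_q(g)`
satisfies `a² ≠ 1` is `q`-old: its system of eigenvalues away from `N q` occurs at level `N`
(`CuspForm.GoodEigensystemOccursAt g N`).

Proof on the group-cohomology side, with the earlier team's level-raising library (`ES/LR`):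
`x := periodHomPair (g, 0) ∈ Hom(Γ₀(N q), ℂ)` is parabolic, nonzero (Eichler–Shimura), an eigenvector
of the double coset operators `T_ℓ` (`ℓ ∤ N q`) and `U_q x = a x`.  With the Atkin–Lehner conjugation
`w` (`UqKer19`): `i₁ t₁ = 1 + U_q w`, `i₂ t₂ = 1 + w U_q`, `w² = 1`, hence
`(1 - a²) x = i₂ (t₂ x) - a • i₁ (t₁ (w x))` lies in the image of
`α = i₁ ∘ per + i₂ ∘ per : (S₂(N)²)² → Hom(Γ₀(N q), ℂ)`, which is `T_ℓ`-equivariant.  Occurrence lifts
along `α` (`LiftOcc.exists_eigenvector_lift`), so some nonzero `f ∈ S₂(Γ₀(N))` is a common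
eigenvector of the `T_ℓ`, `ℓ ∤ N q`, with eigenvalues `a_ℓ(g)`; the common eigenspace is stable under
the full Hecke algebra of level `N` and contains a normalised eigenform (`EigenformOfCommon23`).
-/
import Mathlib
import Fermat.Prelude.Def_CuspForm_Newforms
import Fermat.Agent.ES.LR.UqKer19
import Fermat.Agent.ES.LR.PeriodUq1
import Fermat.Agent.ES.LR.DegHeckeLam5
import Fermat.Agent.ES.LR.EigenformOfCommon23
import Fermat.Agent.ES.HEQ.FaithFinal26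
import Fermat.Agent.ES.J7.EigenVec1
import Fermat.Agent.T1B.U2Lower21.LiftOcc

set_option autoImplicit false
set_option linter.unusedSectionVars false
set_option linter.style.haveILetI false

open CuspForm CongruenceSubgroup ModularFormClass ModularCurve ModularCurve.Period
open scoped MatrixGroups

noncomputable section

namespace Fermat.Agent.T1B.U2Lower21.QOld

open Fermat.Agent.ES.HEQ.FaithInst26 Fermat.Agent.ES.HEQ.FaithFinal26
open Fermat.Agent.ES.HEQ.DoubleCoset27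
open Fermat.Agent.ES.LR.Degeneracy27 Fermat.Agent.ES.LR.DegeneracyPar27
open Fermat.Agent.ES.LR.UqOp28 Fermat.Agent.ES.LR.UqKer19
open Fermat.Agent.ES.LR.DegHeckeLam5

variable {N q : ℕ} [NeZero N] [hqF : Fact q.Prime] [NeZero q]

/-! ### The Atkin–Lehner conjugation preserves parabolic characters -/

theorem trace_wConj {u v : ℤ} (huv : u * (q : ℤ) + v * (N : ℤ) = 1) (γ : Gamma0 (N * q)) :
    (((wConj huv γ : Gamma0 (N * q)) : SL(2, ℤ)) : Matrix (Fin 2) (Fin 2) ℤ).trace =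
      (((γ : Gamma0 (N * q)) : SL(2, ℤ)) : Matrix (Fin 2) (Fin 2) ℤ).trace := by
  rw [coe_wConj, wSL, Matrix.SpecialLinearGroup.coe_mul, Matrix.trace_mul_comm,
    ← Matrix.SpecialLinearGroup.coe_mul, inv_mul_cancel_left, trace_twistH]

/-! ### `ℂ`-linear versions of `i₁`, `i₂` -/

/-- `i₁` as a `ℂ`-linear map. -/
def i1C (N q : ℕ) : (Additive (Gamma0 N) →+ ℂ) →ₗ[ℂ] (Additive (Gamma0 (N * q)) →+ ℂ) where
  toFun := i1 N q
  map_add' := map_add _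
  map_smul' _ _ := rfl

/-- `i₂` as a `ℂ`-linear map. -/
def i2C (N q : ℕ) [NeZero q] :
    (Additive (Gamma0 N) →+ ℂ) →ₗ[ℂ] (Additive (Gamma0 (N * q)) →+ ℂ) where
  toFun := i2 N q
  map_add' := map_add _
  map_smul' _ _ := rfl

@[simp] theorem i1C_apply (φ : Additive (Gamma0 N) →+ ℂ) : i1C N q φ = i1 N q φ := rfl

@[simp] theorem i2C_apply (φ : Additive (Gamma0 N) →+ ℂ) : i2C N q φ = i2 N q φ := rfl

/-- the old-space map `α (p₁, p₂) = i₁ (per p₁) + i₂ (per p₂)`. -/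
def oldMap (N q : ℕ) [NeZero N] [NeZero q] :
    ((CuspForm (Gamma0 N) 2 × CuspForm (Gamma0 N) 2) ×
      (CuspForm (Gamma0 N) 2 × CuspForm (Gamma0 N) 2)) →ₗ[ℂ]
      (Additive (Gamma0 (N * q)) →+ ℂ) :=
  LinearMap.coprod (i1C N q ∘ₗ periodHomPair N) (i2C N q ∘ₗ periodHomPair N)

theorem oldMap_apply (p₁ p₂ : CuspForm (Gamma0 N) 2 × CuspForm (Gamma0 N) 2) :
    oldMap N q (p₁, p₂) = i1 N q (periodHomPair N p₁) + i2 N q (periodHomPair N p₂) := rfl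

/-- the Hecke operator `T_ℓ` on `(S₂ × S₂) × (S₂ × S₂)`. -/
def heckeQuad (N : ℕ) {ℓ : ℕ} (hℓ : ℓ.Prime) (hℓN : ¬ ℓ ∣ N) :
    Module.End ℂ ((CuspForm (Gamma0 N) 2 × CuspForm (Gamma0 N) 2) ×
      (CuspForm (Gamma0 N) 2 × CuspForm (Gamma0 N) 2)) :=
  LinearMap.prodMap
    (LinearMap.prodMap (heckeTLin 2 hℓ hℓN) (heckeTLin 2 hℓ hℓN))
    (LinearMap.prodMap (heckeTLin 2 hℓ hℓN) (heckeTLin 2 hℓ hℓN))

theorem heckeQuad_apply {ℓ : ℕ} (hℓ : ℓ.Prime) (hℓN : ¬ ℓ ∣ N)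
    (f₁ g₁ f₂ g₂ : CuspForm (Gamma0 N) 2) :
    heckeQuad N hℓ hℓN ((f₁, g₁), (f₂, g₂)) =
      ((heckeTLin 2 hℓ hℓN f₁, heckeTLin 2 hℓ hℓN g₁),
        (heckeTLin 2 hℓ hℓN f₂, heckeTLin 2 hℓ hℓN g₂)) := rfl

theorem heckeQuad_commute {ℓ ℓ' : ℕ} (hℓ : ℓ.Prime) (hℓN : ¬ ℓ ∣ N) (hℓ' : ℓ'.Prime)
    (hℓ'N : ¬ ℓ' ∣ N) : Commute (heckeQuad N hℓ hℓN) (heckeQuad N hℓ' hℓ'N) := by
  have h := (heckeTLin_comm (N := N) 2 hℓ hℓN hℓ' hℓ'N).eq
  show heckeQuad N hℓ hℓN * heckeQuad N hℓ' hℓ'N = heckeQuad N hℓ' hℓ'N * heckeQuad N hℓ hℓN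
  simp only [heckeQuad, LinearMap.prodMap_mul, h]

/-- **`α` is Hecke equivariant.** -/
theorem oldMap_heckeQuad {ℓ : ℕ} (hℓ : ℓ.Prime) (hℓN : ¬ ℓ ∣ N) (hℓM : ¬ ℓ ∣ N * q)
    (v : (CuspForm (Gamma0 N) 2 × CuspForm (Gamma0 N) 2) ×
      (CuspForm (Gamma0 N) 2 × CuspForm (Gamma0 N) 2)) :
    oldMap N q (heckeQuad N hℓ hℓN v) = dcC (N * q) ℓ hℓ hℓM (oldMap N q v) := by
  haveI : Fact ℓ.Prime := ⟨hℓ⟩
  obtain ⟨⟨f₁, g₁⟩, ⟨f₂, g₂⟩⟩ := v
  rw [heckeQuad_apply, oldMap_apply, oldMap_apply,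
    periodHomPair_hecke (dcData N) ℓ hℓ hℓN f₁ g₁, periodHomPair_hecke (dcData N) ℓ hℓ hℓN f₂ g₂]
  show i1 N q (tdcAdd hℓN (periodHomPair N (f₁, g₁))) + i2 N q (tdcAdd hℓN (periodHomPair N (f₂, g₂)))
    = tdcAdd hℓM (i1 N q (periodHomPair N (f₁, g₁)) + i2 N q (periodHomPair N (f₂, g₂)))
  rw [i1_tdcAdd N q hℓN hℓM, i2_tdcAdd N q hℓN hℓM, tdcAdd_add]

/-! ### The main theorem -/

/-- **The `q`-old criterion.**  `q ∤ N` prime, `g` a normalised eigenform of level `N q` with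
`a_q(g)² ≠ 1`: there is a normalised eigenform of level `N` with the same `a_ℓ` for all primes
`ℓ ∤ N q`. -/
theorem exists_eigenform_of_sq_ne_one (hqN : ¬ q ∣ N) (g : CuspForm (Gamma0 (N * q)) 2)
    (hg : g.IsNormalizedEigenform) (ha : qCoeff g q ^ 2 ≠ 1) :
    ∃ h : CuspForm (Gamma0 N) 2, h.IsNormalizedEigenform ∧
      ∀ ℓ : ℕ, ℓ.Prime → ¬ ℓ ∣ N * q → qCoeff h ℓ = qCoeff g ℓ := by
  classical
  have hq : q.Prime := hqF.out
  have hqM : q ∣ N * q := Dvd.intro_left N rfl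
  obtain ⟨u, v, huv⟩ := exists_bezout (q := q) hqN
  set a : ℂ := qCoeff g q with ha_def
  have hfin : FiniteDimensional ℂ (CuspForm (Gamma0 N) 2) :=
    Fermat.Agent.S21.Assembly.finite_cusp N
  -- the period class of `g`
  set x : Additive (Gamma0 (N * q)) →+ ℂ := periodHomPair (N * q) (g, 0) with hx
  have hx0 : x ≠ 0 := by
    intro h0
    have h1 : periodHomPair (N * q) (g, 0) = periodHomPair (N * q) 0 := by
      rw [map_zero]; exact h0
    have h2 := (eichlerShimura (N * q)).1 h1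
    exact hg.ne_zero (congrArg Prod.fst h2)
  have hxpar : IsParabolicHom (Gamma0 (N * q)) x := by
    have h1 : x ∈ LinearMap.range (periodHomPair (N * q)) := ⟨(g, 0), rfl⟩
    rw [(eichlerShimura (N * q)).2] at h1
    exact h1
  -- eigen-equations
  have hxT : ∀ (ℓ : ℕ) (hℓ : ℓ.Prime) (hℓM : ¬ ℓ ∣ N * q),
      dcC (N * q) ℓ hℓ hℓM x = qCoeff g ℓ • x := by
    intro ℓ hℓ hℓM
    have h1 := periodHomPair_hecke (dcData (N * q)) ℓ hℓ hℓM g 0
    rw [Fermat.Agent.ES.J7.EigenVec1.heckeTLin_eq_smul hg hℓ hℓM, map_zero] at h1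
    have h2 : ((qCoeff g ℓ • g, (0 : CuspForm (Gamma0 (N * q)) 2)) :
        CuspForm (Gamma0 (N * q)) 2 × CuspForm (Gamma0 (N * q)) 2) = qCoeff g ℓ • (g, 0) := by
      rw [Prod.smul_mk, smul_zero]
    rw [h2, map_smul] at h1
    exact h1.symm
  have hxU : UqAdd hqM x = a • x := by
    have h1 := Fermat.Agent.ES.LR.PeriodUq1.periodHomPair_heckeULin hqM g 0
    rw [Fermat.Agent.ES.J7.EigenVec1.heckeULin_eq_smul hg hq hqM, map_zero] at h1
    have h2 : ((qCoeff g q • g, (0 : CuspForm (Gamma0 (N * q)) 2)) :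
        CuspForm (Gamma0 (N * q)) 2 × CuspForm (Gamma0 (N * q)) 2) = qCoeff g q • (g, 0) := by
      rw [Prod.smul_mk, smul_zero]
    rw [h2, map_smul] at h1
    exact h1.symm
  -- the Atkin–Lehner translate
  set x' : Additive (Gamma0 (N * q)) →+ ℂ := resAdd (wConj huv) x with hx'
  have hx'par : IsParabolicHom (Gamma0 (N * q)) x' :=
    resAdd_isParabolic (wConj huv) (trace_wConj huv) hxpar
  have hwsmul : resAdd (wConj huv) (a • x) = a • x' := rfl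
  have E1 : i1 N q (t1 N q x') = x' + a • x := by
    rw [i1_t1 huv hqN hqM x', hx', resAdd_wConj_wConj, hxU]
  have E2 : i2 N q (t2 N q x) = x + a • x' := by
    rw [i2_t2 huv hqN hqM x, hxU, hwsmul]
  have key : (1 - a ^ 2) • x = i2 N q (t2 N q x) - a • i1 N q (t1 N q x') := by
    rw [E1, E2, smul_add, smul_smul, sub_smul, one_smul, pow_two]
    abel
  -- `t₁ x'` and `t₂ x` are periods
  have hy1 : IsParabolicHom (Gamma0 N) (t1 N q x') :=
    (t1Par N q ℂ ℂ ⟨x', hx'par⟩).2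
  have hy2 : IsParabolicHom (Gamma0 N) (t2 N q x) :=
    (t2Par N q ℂ ℂ ⟨x, hxpar⟩).2
  obtain ⟨p₁, hp₁⟩ : ∃ p₁, periodHomPair N p₁ = t1 N q x' := by
    have h1 : t1 N q x' ∈ ParC N := hy1
    rw [← (eichlerShimura N).2] at h1
    exact h1
  obtain ⟨p₂, hp₂⟩ : ∃ p₂, periodHomPair N p₂ = t2 N q x := by
    have h1 : t2 N q x ∈ ParC N := hy2
    rw [← (eichlerShimura N).2] at h1
    exact h1
  -- the index set and the families
  let κ : Type := {ℓ : ℕ // ℓ.Prime ∧ ¬ ℓ ∣ N * q}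
  have hκN : ∀ i : κ, ¬ (i : ℕ) ∣ N := fun i h => i.2.2 (h.mul_right q)
  let TV : κ → Module.End ℂ ((CuspForm (Gamma0 N) 2 × CuspForm (Gamma0 N) 2) ×
      (CuspForm (Gamma0 N) 2 × CuspForm (Gamma0 N) 2)) := fun i => heckeQuad N i.2.1 (hκN i)
  let TW : κ → Module.End ℂ (Additive (Gamma0 (N * q)) →+ ℂ) := fun i =>
    dcC (N * q) i i.2.1 i.2.2
  let lam : κ → ℂ := fun i => qCoeff g (i : ℕ)
  have hTV : ∀ i j, Commute (TV i) (TV j) := fun i j =>
    heckeQuad_commute i.2.1 (hκN i) j.2.1 (hκN j)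
  have hα : ∀ (i : κ) w, oldMap N q (TV i w) = TW i (oldMap N q w) := fun i w =>
    oldMap_heckeQuad i.2.1 (hκN i) i.2.2 w
  -- `(1 - a²) x` is in the image of `α`
  have hv₀ : oldMap N q ((-a) • p₁, p₂) = (1 - a ^ 2) • x := by
    rw [oldMap_apply, map_smul, hp₁, hp₂, key]
    show i1 N q ((-a) • t1 N q x') + i2 N q (t2 N q x) = _
    have h1 : i1 N q ((-a) • t1 N q x') = (-a) • i1 N q (t1 N q x') := rfl
    rw [h1, neg_smul]
    abel
  have hne : (1 - a ^ 2) ≠ 0 := sub_ne_zero.mpr (Ne.symm ha)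
  have hw0 : oldMap N q ((-a) • p₁, p₂) ≠ 0 := by
    rw [hv₀]
    exact smul_ne_zero hne hx0
  have hw : ∀ i : κ, TW i (oldMap N q ((-a) • p₁, p₂)) = lam i • oldMap N q ((-a) • p₁, p₂) := by
    intro i
    rw [hv₀, map_smul, smul_comm]
    congr 1
    exact hxT i i.2.1 i.2.2
  obtain ⟨w, hw0', hweig⟩ := LiftOcc.exists_eigenvector_lift TV hTV lam TW (oldMap N q) hα
    ((-a) • p₁, p₂) hw0 hw
  -- the common eigenspace at level `N`
  let Vlam : Submodule ℂ (CuspForm (Gamma0 N) 2) :=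
    ⨅ i : κ, LinearMap.ker (heckeTLin 2 i.2.1 (hκN i) - lam i • (1 : Module.End ℂ _))
  have hmemV : ∀ f : CuspForm (Gamma0 N) 2, f ∈ Vlam ↔
      ∀ i : κ, heckeTLin 2 i.2.1 (hκN i) f = lam i • f := by
    intro f
    simp only [Vlam, Submodule.mem_iInf, LinearMap.mem_ker, LinearMap.sub_apply,
      LinearMap.smul_apply, Module.End.one_apply, sub_eq_zero]
  obtain ⟨⟨f₁, g₁⟩, ⟨f₂, g₂⟩⟩ := w
  have hcomp : ∀ i : κ,
      (heckeTLin 2 i.2.1 (hκN i) f₁ = lam i • f₁ ∧ heckeTLin 2 i.2.1 (hκN i) g₁ = lam i • g₁) ∧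
      (heckeTLin 2 i.2.1 (hκN i) f₂ = lam i • f₂ ∧ heckeTLin 2 i.2.1 (hκN i) g₂ = lam i • g₂) := by
    intro i
    have h := hweig i
    simp only [TV, heckeQuad_apply, Prod.smul_mk, Prod.mk.injEq] at h
    exact h
  have hVbot : Vlam ≠ ⊥ := by
    intro hb
    apply hw0'
    have hz : ∀ f : CuspForm (Gamma0 N) 2, (∀ i : κ, heckeTLin 2 i.2.1 (hκN i) f = lam i • f) →
        f = 0 := fun f hf => by
      have : f ∈ Vlam := (hmemV f).2 hf
      rwa [hb, Submodule.mem_bot] at this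
    rw [hz f₁ fun i => (hcomp i).1.1, hz g₁ fun i => (hcomp i).1.2,
      hz f₂ fun i => (hcomp i).2.1, hz g₂ fun i => (hcomp i).2.2]
    rfl
  have hstabT : ∀ (r : ℕ) (hr : r.Prime) (hrN : ¬ r ∣ N), ∀ f ∈ Vlam, heckeTLin 2 hr hrN f ∈ Vlam := by
    intro r hr hrN f hf
    rw [hmemV] at hf ⊢
    intro i
    have hc := (heckeTLin_comm (N := N) 2 hr hrN i.2.1 (hκN i)).eq
    have := congrArg (fun A : Module.End ℂ (CuspForm (Gamma0 N) 2) => A f) hc
    simp only [Module.End.mul_apply] at this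
    rw [← this, hf i, map_smul]
  have hstabU : ∀ (r : ℕ) (_ : r.Prime) (hrN : r ∣ N), ∀ f ∈ Vlam, heckeULin 2 hrN f ∈ Vlam := by
    intro r _ hrN f hf
    rw [hmemV] at hf ⊢
    intro i
    have hc := (heckeTLin_heckeULin_comm (N := N) 2 i.2.1 (hκN i) hrN).eq
    have := congrArg (fun A : Module.End ℂ (CuspForm (Gamma0 N) 2) => A f) hc
    simp only [Module.End.mul_apply] at this
    rw [this, hf i, map_smul]
  obtain ⟨h, hhV, hh⟩ :=
    Fermat.Agent.ES.LR.EigenformOfCommon23.exists_normalizedEigenform_mem Vlam hVbot hstabT hstabU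
  refine ⟨h, hh, fun ℓ hℓ hℓM => ?_⟩
  exact Fermat.Agent.ES.LR.EigenformOfCommon23.qCoeff_eq_of_heckeTLin_eq_smul hh hℓ
    (fun hd => hℓM (hd.mul_right q)) ((hmemV h).1 hhV ⟨ℓ, hℓ, hℓM⟩)

end Fermat.Agent.T1B.U2Lower21.QOld
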