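/-
Programme T1B, brick 504 (helper21): consumer forms of the `q`-old criterion (`QOld`) and of
helper50's `U_p`-level-lowering (`T1/U2Lower50`), in the Prelude's vocabulary
(`Def_CuspForm_Newforms`):

* `goodEigensystemOccursAt_of_sq_ne_one` : `q ∤ N`, `g` normalised eigenform of level `N q`,
  `a_q(g)² ≠ 1` ⟹ `GoodEigensystemOccursAt g N`;
* `goodEigensystemOccursAt_div` : the same for level `M`, `q ∥ M`, conclusion at level `M / q`;
* `goodEigensystemOccursAt_two_mul`, `goodEigensystemOccursAt_four_mul` : the shapes `2 m`, `4 m`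
  (`m` odd) used by the descent from the auxiliary level;
* `qCoeff_sq_eq_one_of_isNewformAt`, `qCoeff_eq_zero_of_isNewformAt` and
  **`newformBadPrimeCoeff M : CuspForm.NewformBadPrimeCoeff M`** (the Prelude's `Prop`, for every
  level `M ≥ 1`): a newform has `a_q² = 1` at `q ∥ M` and `a_q = 0` at `q² ∣ M`.
-/
import Mathlib
import Fermat.Prelude.Def_CuspForm_Newforms
import Fermat.Agent.T1B.U2Lower21.QOld
import Fermat.Agent.T1.U2Lower50.Eigen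

set_option autoImplicit false
set_option linter.unusedSectionVars false
set_option linter.style.haveILetI false

open CuspForm CongruenceSubgroup ModularFormClass

namespace Fermat.Agent.T1B.U2Lower21.Newform

/-- **The `q`-old criterion**, Prelude vocabulary. -/
theorem goodEigensystemOccursAt_of_sq_ne_one {N q : ℕ} [NeZero N] (hq : q.Prime) (hqN : ¬ q ∣ N)
    (g : CuspForm (Gamma0 (N * q)) 2) (hg : g.IsNormalizedEigenform)
    (ha : qCoeff g q ^ 2 ≠ 1) : CuspForm.GoodEigensystemOccursAt g N := by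
  haveI : Fact q.Prime := ⟨hq⟩
  haveI : NeZero q := ⟨hq.ne_zero⟩
  obtain ⟨h, hh, hcoef⟩ := QOld.exists_eigenform_of_sq_ne_one hqN g hg ha
  exact ⟨h, hh, hcoef⟩

/-- The `q`-old criterion at a level `M` with `q ∥ M`. -/
theorem goodEigensystemOccursAt_div {M q : ℕ} [NeZero M] (hq : q.Prime) (hqM : q ∣ M)
    (hq2 : ¬ q ^ 2 ∣ M) (g : CuspForm (Gamma0 M) 2) (hg : g.IsNormalizedEigenform)
    (ha : qCoeff g q ^ 2 ≠ 1) : CuspForm.GoodEigensystemOccursAt g (M / q) := by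
  obtain ⟨N, rfl⟩ : ∃ N, M = N * q := ⟨M / q, (Nat.div_mul_cancel hqM).symm⟩
  haveI hN0 : NeZero N := ⟨fun h => NeZero.ne (N * q) (by rw [h, zero_mul])⟩
  have hqN : ¬ q ∣ N := fun ⟨c, hc⟩ => hq2 ⟨c, by rw [hc]; ring⟩
  rw [Nat.mul_div_cancel _ hq.pos]
  exact goodEigensystemOccursAt_of_sq_ne_one hq hqN g hg ha

/-- level `2 m`, `m` odd. -/
theorem goodEigensystemOccursAt_two_mul (m : ℕ) [NeZero m] (hm : ¬ 2 ∣ m)
    (g : CuspForm (Gamma0 (2 * m)) 2) (hg : g.IsNormalizedEigenform)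
    (ha : qCoeff g 2 ^ 2 ≠ 1) : CuspForm.GoodEigensystemOccursAt g m := by
  haveI : NeZero (2 * m) := ⟨Nat.mul_ne_zero two_ne_zero (NeZero.ne m)⟩
  have h2 : ¬ 2 ^ 2 ∣ 2 * m := by
    rintro ⟨c, hc⟩
    exact hm ⟨c, by omega⟩
  have h := goodEigensystemOccursAt_div Nat.prime_two (Dvd.intro m rfl) h2 g hg ha
  rwa [Nat.mul_div_cancel_left m two_pos] at h

/-- A newform of level `M` has `a_q² = 1` at the primes `q ∥ M`. -/
theorem qCoeff_sq_eq_one_of_isNewformAt {M q : ℕ} [NeZero M] (hq : q.Prime) (hq2 : ¬ q ^ 2 ∣ M)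
    {f : CuspForm (Gamma0 M) 2} (hf : f.IsNewformAt q) : qCoeff f q ^ 2 = 1 := by
  by_contra h
  exact hf.2.2 (goodEigensystemOccursAt_div hq hf.2.1 hq2 f hf.1 h)

/-- A newform of level `M` has `a_q = 0` at the primes `q² ∣ M`. -/
theorem qCoeff_eq_zero_of_isNewformAt {M q : ℕ} [NeZero M] (hq : q.Prime) (hq2 : q ^ 2 ∣ M)
    {f : CuspForm (Gamma0 M) 2} (hf : f.IsNewformAt q) : qCoeff f q = 0 := by
  by_contra h
  haveI : Fact q.Prime := ⟨hq⟩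
  obtain ⟨g, hg, hcoef⟩ := Fermat.Agent.T1.U2Lower50.exists_eigenform_lower hf.1 hq2 h
  exact hf.2.2 ⟨g, hg, fun ℓ _ _ => hcoef ℓ⟩

/-- **The Prelude's `NewformBadPrimeCoeff M` holds for every level `M ≥ 1`.** -/
theorem newformBadPrimeCoeff (M : ℕ) [NeZero M] : CuspForm.NewformBadPrimeCoeff M := by
  intro f hf q hq hqM
  have hfq : f.IsNewformAt q := hf.isNewformAt hq hqM (NeZero.ne M)
  exact ⟨fun h2 => qCoeff_sq_eq_one_of_isNewformAt hq h2 hfq,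
    fun h2 => qCoeff_eq_zero_of_isNewformAt hq h2 hfq⟩

/-- level `4 m`, `m` odd: `a_2 ≠ 0` and `a_2² ≠ 1` bring the eigensystem down to level `m`
(`U_2` lowers `4 m → 2 m` with all coefficients, then the `2`-old criterion). -/
theorem goodEigensystemOccursAt_four_mul (m : ℕ) [NeZero m] (hm : ¬ 2 ∣ m)
    (g : CuspForm (Gamma0 (4 * m)) 2) (hg : g.IsNormalizedEigenform)
    (h0 : qCoeff g 2 ≠ 0) (h1 : qCoeff g 2 ^ 2 ≠ 1) : CuspForm.GoodEigensystemOccursAt g m := by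
  haveI : NeZero (4 * m) := ⟨Nat.mul_ne_zero (by norm_num) (NeZero.ne m)⟩
  haveI : Fact (2 : ℕ).Prime := ⟨Nat.prime_two⟩
  have h4 : 2 ^ 2 ∣ 4 * m := ⟨m, by ring⟩
  obtain ⟨g', hg', hcoef⟩ := Fermat.Agent.T1.U2Lower50.exists_eigenform_lower hg h4 h0
  have e : 4 * m / 2 = 2 * m := by omega
  -- transport `g'` to level `2 * m`
  obtain ⟨g'', hg'', hcoef''⟩ : ∃ g'' : CuspForm (Gamma0 (2 * m)) 2,
      g''.IsNormalizedEigenform ∧ ∀ n, qCoeff g'' n = qCoeff g n := by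
    rw [← e]
    exact ⟨g', hg', hcoef⟩
  have h1'' : qCoeff g'' 2 ^ 2 ≠ 1 := by rw [hcoef'']; exact h1
  obtain ⟨h, hh, hcoefh⟩ := goodEigensystemOccursAt_two_mul m hm g'' hg'' h1''
  refine ⟨h, hh, fun ℓ hℓ hℓm => ?_⟩
  rw [← hcoef'' ℓ]
  refine hcoefh ℓ hℓ fun hd => hℓm ?_
  exact hd.trans ⟨2, by ring⟩

/-! ### Wiring into `FreyPackage.ModularRepOfLevel` / `IsResiduallyModularOfLevel` -/

/-- If the good eigensystem of the form `f` in a `ModularRepOfLevel N` datum occurs at level `M` and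
the model is bad at every prime dividing `N` but not `M`, then `ModularRepOfLevel M`. -/
theorem modularRepOfLevel_of_occurs (P : FreyPackage) {N M : ℕ}
    (f : CuspForm (Gamma0 N) 2) (W : WeierstrassCurve ℤ) (𝔪 : Ideal (integralClosure ℤ ℂ))
    (hW : W.IsIntegralModelOf P.freyCurve) (hmax : 𝔪.IsMaximal)
    (hp : (P.p : integralClosure ℤ ℂ) ∈ 𝔪)
    (hcong : ∀ ℓ : ℕ, ℓ.Prime → W.IsGoodPrimeFor ℓ → ¬ ℓ ∣ N → ℓ ≠ P.p →
      ∃ a : integralClosure ℤ ℂ, (a : ℂ) = qCoeff f ℓ ∧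
        a - ((W.apOfModel ℓ : ℤ) : integralClosure ℤ ℂ) ∈ 𝔪)
    (hocc : CuspForm.GoodEigensystemOccursAt f M)
    (hbad : ∀ ℓ : ℕ, ℓ.Prime → ℓ ∣ N → ¬ ℓ ∣ M → ¬ W.IsGoodPrimeFor ℓ) :
    P.ModularRepOfLevel M := by
  obtain ⟨g, hg, hcoef⟩ := hocc
  refine ⟨g, W, 𝔪, hg, hW, hmax, hp, fun ℓ hℓ hgood hℓM hℓp => ?_⟩
  have hℓN : ¬ ℓ ∣ N := fun hd => hbad ℓ hℓ hd hℓM hgood
  obtain ⟨a, ha, ham⟩ := hcong ℓ hℓ hgood hℓN hℓp
  exact ⟨a, by rw [ha, hcoef ℓ hℓ hℓN], ham⟩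

/-- The same for `WeierstrassCurve.IsResiduallyModularOfLevel`. -/
theorem isResiduallyModularOfLevel_of_occurs (W : WeierstrassCurve ℤ) {p N M : ℕ}
    (f : CuspForm (Gamma0 N) 2) (𝔪 : Ideal (integralClosure ℤ ℂ)) (hmax : 𝔪.IsMaximal)
    (hp : (p : integralClosure ℤ ℂ) ∈ 𝔪)
    (hcong : ∀ ℓ : ℕ, ℓ.Prime → W.IsGoodPrimeFor ℓ → ¬ ℓ ∣ N → ℓ ≠ p →
      ∃ a : integralClosure ℤ ℂ, (a : ℂ) = qCoeff f ℓ ∧
        a - ((W.apOfModel ℓ : ℤ) : integralClosure ℤ ℂ) ∈ 𝔪)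
    (hocc : CuspForm.GoodEigensystemOccursAt f M)
    (hbad : ∀ ℓ : ℕ, ℓ.Prime → ℓ ∣ N → ¬ ℓ ∣ M → ¬ W.IsGoodPrimeFor ℓ) :
    W.IsResiduallyModularOfLevel p M := by
  obtain ⟨g, hg, hcoef⟩ := hocc
  refine ⟨g, 𝔪, hg, hmax, hp, fun ℓ hℓ hgood hℓM hℓp => ?_⟩
  have hℓN : ¬ ℓ ∣ N := fun hd => hbad ℓ hℓ hd hℓM hgood
  obtain ⟨a, ha, ham⟩ := hcong ℓ hℓ hgood hℓN hℓp
  exact ⟨a, by rw [ha, hcoef ℓ hℓ hℓN], ham⟩

end Fermat.Agent.T1B.U2Lower21.Newform
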