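/-
T1B / brick STAB2, part 1 (helper21): dilation `f(z) ↦ f(m z)` on cusp forms for `Γ₀`.

* `dilCusp0 m : CuspForm Γ₀(L) k → CuspForm Γ₀(L m) k`, `⇑(dilCusp0 m f) = vp m ⇑f`;
* `good_coe0` : forms on `Γ₀(L)` are good (1-periodic, holomorphic, bounded at `i∞`);
* `qCoeff_dilCusp0` : `a_n(dilCusp0 m f) = [m ∣ n] a_{n/m}(f)`.
-/
import Mathlib
import Fermat.Prelude.Def_FLTPrelim_Modularity
import Fermat.Prelude.Thm_CongruenceSubgroup_one_mem_strictPeriods_Gamma0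
import Fermat.Agent.DS.W1.Dilate
import Fermat.Agent.ES.Q58.LevelIncl12

set_option autoImplicit false
set_option linter.unusedSectionVars false

open Matrix.SpecialLinearGroup UpperHalfPlane CongruenceSubgroup ModularForm
open scoped MatrixGroups ModularForm OnePoint Manifold

namespace Fermat.Agent.T1B.U2Lower21.Dil0

open Fermat.Agent.DS.W1.Forms ModularFormClass Fermat.Agent.DS.Neb.Vp
open Fermat.Agent.DS.W1.Dilate

variable {L : ℕ} [NeZero L] {k : ℤ}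

local notation "Γ0L" => ((Gamma0 L : Subgroup SL(2, ℤ)) : Subgroup (GL (Fin 2) ℝ))

/-- Forms on `Γ₀(L)` are good. -/
theorem good_coe0 {F : Type*} [FunLike F ℍ ℂ] [ModularFormClass F Γ0L k] (f : F) :
    Good (f : ℍ → ℂ) where
  per := SlashInvariantFormClass.periodic_comp_ofComplex f
    (CongruenceSubgroup.one_mem_strictPeriods_Gamma0 L)
  hol := ModularFormClass.holo f
  bdd := ModularFormClass.bdd_at_infty f

variable (m : ℕ) [NeZero m]

/-- Dilation `h(τ) ↦ h(m τ)` on cusp forms, raising the level from `Γ₀(L)` to `Γ₀(L m)`. -/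
noncomputable def dilCusp0 (h : CuspForm Γ0L k) :
    CuspForm ((Gamma0 (L * m) : Subgroup SL(2, ℤ)) : Subgroup (GL (Fin 2) ℝ)) k where
  toFun := vp m (h : ℍ → ℂ)
  slash_action_eq' := by
    rintro A ⟨γ, hγ, rfl⟩
    obtain ⟨γ', hγ', -, hs⟩ := vp_slash_Gamma0 (k := k) (NeZero.ne m) hγ
    have h1 : (vp m (h : ℍ → ℂ)) ∣[k] γ = vp m ((h : ℍ → ℂ) ∣[k] γ') := hs (h : ℍ → ℂ)
    have h2 : (h : ℍ → ℂ) ∣[k] γ' = h := by
      rw [SL_slash]
      exact h.slash_action_eq' _ (Subgroup.mem_map_of_mem _ hγ')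
    rw [h2, SL_slash] at h1
    exact h1
  holo' := mdiff_vp (NeZero.ne m) h.holo'
  zero_at_cusps' := by
    intro c hc
    rw [Subgroup.IsArithmetic.isCusp_iff_isCusp_SL2Z] at hc
    have hc' : IsCusp c Γ0L := by
      rw [Subgroup.IsArithmetic.isCusp_iff_isCusp_SL2Z]; exact hc
    show OnePoint.IsZeroAt c (vp m (h : ℍ → ℂ)) k
    rw [vp_eq_slash k (NeZero.ne m)]
    exact isZeroAt_slash_heckeDiagMatrix' ((((m : ℂ) ^ (k - 1))⁻¹) • h) m hc'

@[simp] theorem coe_dilCusp0 (h : CuspForm Γ0L k) :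
    (dilCusp0 m h : ℍ → ℂ) = vp m (h : ℍ → ℂ) := rfl

theorem qCoeff_dilCusp0 (h : CuspForm Γ0L k) (n : ℕ) :
    qCoeff (dilCusp0 m h) n = if m ∣ n then qCoeff h (n / m) else 0 :=
  qCoeff_vp (NeZero.ne m) (good_coe0 h) n

end Fermat.Agent.T1B.U2Lower21.Dil0
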