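/-
T1B / brick STAB2 (helper21): 2-stabilisation at odd level.

For `M` odd, `f` a normalised eigenform of level `M`, `α + β = a_2(f)`, `α β = 2`:
`stab f β = f(z) − β f(2z)` is a normalised eigenform of level `4 M` with `a_2 = α` and the same
`a_n` for odd `n` (`isNormalizedEigenform_stab`, `qCoeff_stab_two`, `qCoeff_stab_of_odd`).
`α, β` are algebraic integers, `α β = 2`, so for a maximal ideal `𝔪 ∌ 2, 3` both are units mod `𝔪`
and one of them has square `≢ 1`; this gives `stab2 : Top68.STAB2`.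
-/
import Mathlib
import Fermat.Agent.T1B.U2Lower21.Dil0
import Fermat.Agent.ES.J7.EigenChar1
import Fermat.Agent.T1B.Top68.Iface

set_option autoImplicit false

open CuspForm CongruenceSubgroup ModularFormClass
open scoped MatrixGroups

namespace Fermat.Agent.T1B.U2Lower21.Stab2

open Fermat.Agent.DS.W1.Forms Fermat.Agent.DS.Neb.Vp
open Fermat.Agent.T1B.U2Lower21.Dil0 Fermat.Agent.ES.Q58.LevelIncl12

/-! ### Arithmetic of the stabilised coefficients -/

section Arith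

variable {M : ℕ} (a b : ℕ → ℂ) (α β : ℂ)

theorem stab_odd (hb : ∀ n, b n = a n - β * (if 2 ∣ n then a (n / 2) else 0)) {n : ℕ}
    (hn : ¬ 2 ∣ n) : b n = a n := by
  rw [hb n, if_neg hn, mul_zero, sub_zero]

theorem stab_even (hb : ∀ n, b n = a n - β * (if 2 ∣ n then a (n / 2) else 0)) (n : ℕ) :
    b (2 * n) = a (2 * n) - β * a n := by
  rw [hb (2 * n), if_pos (dvd_mul_right 2 n), Nat.mul_div_cancel_left n two_pos]

theorem stab_one (h1 : a 1 = 1)
    (hb : ∀ n, b n = a n - β * (if 2 ∣ n then a (n / 2) else 0)) : b 1 = 1 := by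
  rw [stab_odd a b β hb (by norm_num), h1]

theorem stab_two (h1 : a 1 = 1) (hsum : α + β = a 2)
    (hb : ∀ n, b n = a n - β * (if 2 ∣ n then a (n / 2) else 0)) : b 2 = α := by
  have := stab_even a b β hb 1
  rw [mul_one, h1, ← hsum] at this
  rw [this]; ring

theorem stab_mul (hmul : ∀ m n : ℕ, m.Coprime n → a (m * n) = a m * a n)
    (hb : ∀ n, b n = a n - β * (if 2 ∣ n then a (n / 2) else 0))
    (m n : ℕ) (hmn : m.Coprime n) : b (m * n) = b m * b n := by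
  by_cases hm : 2 ∣ m
  · have hn : ¬ 2 ∣ n := fun hn => Nat.not_coprime_of_dvd_of_dvd (by norm_num) hm hn hmn
    obtain ⟨m₁, rfl⟩ := hm
    have hc : m₁.Coprime n := Nat.Coprime.coprime_mul_left hmn
    rw [mul_assoc, stab_even a b β hb (m₁ * n), stab_even a b β hb m₁, stab_odd a b β hb hn,
      ← mul_assoc, hmul _ _ hmn, hmul _ _ hc]
    ring
  · by_cases hn : 2 ∣ n
    · obtain ⟨n₁, rfl⟩ := hn
      have hc : m.Coprime n₁ := Nat.Coprime.coprime_mul_left_right hmn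
      rw [mul_left_comm, stab_even a b β hb (m * n₁), stab_even a b β hb n₁,
        stab_odd a b β hb hm, mul_left_comm, hmul _ _ hmn, hmul _ _ hc]
      ring
    · have hmn2 : ¬ 2 ∣ m * n := fun h => (Nat.prime_two.dvd_mul.mp h).elim hm hn
      rw [stab_odd a b β hb hmn2, stab_odd a b β hb hm, stab_odd a b β hb hn, hmul _ _ hmn]

theorem not_two_dvd_pow {p : ℕ} (hp : p.Prime) (hp2 : p ≠ 2) (r : ℕ) : ¬ 2 ∣ p ^ r := by
  intro h
  exact hp2 ((Nat.prime_dvd_prime_iff_eq Nat.prime_two hp).mp (Nat.prime_two.dvd_of_dvd_pow h)).symm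

theorem stab_good
    (hgood : ∀ p r : ℕ, p.Prime → ¬ p ∣ M →
      a (p ^ (r + 2)) = a p * a (p ^ (r + 1)) - p * a (p ^ r))
    (hb : ∀ n, b n = a n - β * (if 2 ∣ n then a (n / 2) else 0))
    (p r : ℕ) (hp : p.Prime) (hpM : ¬ p ∣ 4 * M) :
    b (p ^ (r + 2)) = b p * b (p ^ (r + 1)) - p * b (p ^ r) := by
  have hp2 : p ≠ 2 := by
    rintro rfl
    exact hpM (Dvd.dvd.mul_right (by norm_num) M)
  have hpM' : ¬ p ∣ M := fun h => hpM (Dvd.dvd.mul_left h 4)
  have hp1 : ¬ 2 ∣ p := by simpa using not_two_dvd_pow hp hp2 1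
  rw [stab_odd a b β hb (not_two_dvd_pow hp hp2 _), stab_odd a b β hb (not_two_dvd_pow hp hp2 _),
    stab_odd a b β hb (not_two_dvd_pow hp hp2 _), stab_odd a b β hb hp1, hgood p r hp hpM']

theorem stab_bad (hM : ¬ 2 ∣ M) (hsum : α + β = a 2) (hprod : α * β = 2) (h1 : a 1 = 1)
    (hgood : ∀ p r : ℕ, p.Prime → ¬ p ∣ M →
      a (p ^ (r + 2)) = a p * a (p ^ (r + 1)) - p * a (p ^ r))
    (hbad : ∀ p r : ℕ, p.Prime → p ∣ M → a (p ^ (r + 2)) = a p * a (p ^ (r + 1)))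
    (hb : ∀ n, b n = a n - β * (if 2 ∣ n then a (n / 2) else 0))
    (p r : ℕ) (hp : p.Prime) (hpM : p ∣ 4 * M) :
    b (p ^ (r + 2)) = b p * b (p ^ (r + 1)) := by
  by_cases hp2 : p = 2
  · subst hp2
    have e1 : b (2 ^ (r + 2)) = a (2 ^ (r + 2)) - β * a (2 ^ (r + 1)) := by
      rw [pow_succ' 2 (r + 1), stab_even a b β hb]
    have e2 : b (2 ^ (r + 1)) = a (2 ^ (r + 1)) - β * a (2 ^ r) := by
      rw [pow_succ' 2 r, stab_even a b β hb]
    have e3 := hgood 2 r Nat.prime_two hM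
    rw [e1, e2, stab_two a b α β h1 hsum hb, e3, ← hsum]
    push_cast
    linear_combination (a (2 ^ r)) * hprod
  · have hpM' : p ∣ M := by
      rcases hp.dvd_mul.mp hpM with h | h
      · exfalso
        have h4 : p ∣ 2 ^ 2 := by norm_num; exact h
        exact hp2 ((Nat.prime_dvd_prime_iff_eq hp Nat.prime_two).mp (hp.dvd_of_dvd_pow h4))
      · exact h
    have hp1 : ¬ 2 ∣ p := by simpa using not_two_dvd_pow hp hp2 1
    rw [stab_odd a b β hb (not_two_dvd_pow hp hp2 _), stab_odd a b β hb (not_two_dvd_pow hp hp2 _),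
      stab_odd a b β hb hp1, hbad p r hp hpM']

end Arith

/-! ### The stabilised form -/

section Form

variable {M : ℕ} [NeZero M]

/-- `f(z) − β f(2z)`, as a cusp form of level `4 M`. -/
noncomputable def stab (f : CuspForm (Gamma0 M) 2) (β : ℂ) : CuspForm (Gamma0 (4 * M)) 2 :=
  levelIncl (Dvd.intro_left 4 rfl : M ∣ 4 * M) 2 f -
    β • levelIncl (⟨2, by ring⟩ : M * 2 ∣ 4 * M) 2 (dilCusp0 2 f)

theorem coe_stab (f : CuspForm (Gamma0 M) 2) (β : ℂ) :
    (⇑(stab f β) : UpperHalfPlane → ℂ) = ⇑f - β • vp 2 ⇑f := by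
  unfold stab
  rw [FunLike.coe_sub, FunLike.coe_smul, coe_levelIncl, coe_levelIncl, coe_dilCusp0]

theorem qCoeff_stab (f : CuspForm (Gamma0 M) 2) (β : ℂ) (n : ℕ) :
    qCoeff (stab f β) n = qCoeff f n - β * (if 2 ∣ n then qCoeff f (n / 2) else 0) := by
  have hf : Good (⇑f : UpperHalfPlane → ℂ) := good_coe0 f
  have hv : Good (vp 2 (⇑f : UpperHalfPlane → ℂ)) := good_vp two_ne_zero hf
  rw [coe_stab, qCoeff_sub hf (Good.smul β hv), qCoeff_smul hv, qCoeff_vp two_ne_zero hf]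

theorem isNormalizedEigenform_stab (hM : ¬ 2 ∣ M) {f : CuspForm (Gamma0 M) 2}
    (hf : f.IsNormalizedEigenform) {α β : ℂ} (hsum : α + β = qCoeff f 2) (hprod : α * β = 2) :
    (stab f β).IsNormalizedEigenform where
  qCoeff_one := stab_one _ _ β hf.qCoeff_one (qCoeff_stab f β)
  qCoeff_mul_of_coprime := stab_mul _ _ β hf.qCoeff_mul_of_coprime (qCoeff_stab f β)
  qCoeff_prime_pow_of_not_dvd := stab_good _ _ β hf.qCoeff_prime_pow_of_not_dvd (qCoeff_stab f β)
  qCoeff_prime_pow_of_dvd := stab_bad _ _ α β hM hsum hprod hf.qCoeff_one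
    hf.qCoeff_prime_pow_of_not_dvd hf.qCoeff_prime_pow_of_dvd (qCoeff_stab f β)

theorem qCoeff_stab_two {f : CuspForm (Gamma0 M) 2} (hf : f.IsNormalizedEigenform) {α β : ℂ}
    (hsum : α + β = qCoeff f 2) : qCoeff (stab f β) 2 = α :=
  stab_two _ _ α β hf.qCoeff_one hsum (qCoeff_stab f β)

theorem qCoeff_stab_of_odd (f : CuspForm (Gamma0 M) 2) (β : ℂ) {n : ℕ} (hn : ¬ 2 ∣ n) :
    qCoeff (stab f β) n = qCoeff f n :=
  stab_odd _ _ β (qCoeff_stab f β) hn

end Form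

/-! ### Integrality and the choice of the root -/

section Integral

open Polynomial Fermat.Agent.ES.J7.EigenChar1

theorem isIntegral_qCoeff_two {M : ℕ} [NeZero M] (hM : ¬ 2 ∣ M) {f : CuspForm (Gamma0 M) 2}
    (hf : f.IsNormalizedEigenform) : IsIntegral ℤ (qCoeff f 2) := by
  have h := isIntegral_chiC hf ∅ (heckeAlgebra.T Nat.prime_two hM (Set.notMem_empty 2))
  rwa [chiC_T] at h

/-- The two roots of `X² − a X + 2`, `a` an algebraic integer, are algebraic integers. -/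
theorem exists_roots (a : ℂ) (ha : IsIntegral ℤ a) :
    ∃ α β : integralClosure ℤ ℂ, (α : ℂ) + (β : ℂ) = a ∧ α * β = 2 := by
  obtain ⟨s, hs⟩ := IsAlgClosed.exists_eq_mul_self (discrim (1 : ℂ) (-a) 2)
  obtain ⟨x, hx⟩ := exists_quadratic_eq_zero (one_ne_zero : (1 : ℂ) ≠ 0) ⟨s, hs⟩
  have hxA : IsIntegral (integralClosure ℤ ℂ) x := by
    refine ⟨X ^ 2 - C (⟨a, ha⟩ : integralClosure ℤ ℂ) * X + C 2, ?_, ?_⟩
    · have hd : (- C (⟨a, ha⟩ : integralClosure ℤ ℂ) * X + C 2 : (integralClosure ℤ ℂ)[X]).degree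
          < (2 : ℕ) := by
        refine lt_of_le_of_lt (b := (1 : WithBot ℕ)) ?_ (by norm_num)
        compute_degree
      have e : (X ^ 2 - C (⟨a, ha⟩ : integralClosure ℤ ℂ) * X + C 2 : (integralClosure ℤ ℂ)[X])
          = X ^ 2 + (- C (⟨a, ha⟩ : integralClosure ℤ ℂ) * X + C 2) := by ring
      rw [e]
      exact monic_X_pow_add hd
    · simp only [eval₂_add, eval₂_sub, eval₂_mul, eval₂_pow, eval₂_X, eval₂_C]
      have e1 : algebraMap (integralClosure ℤ ℂ) ℂ ⟨a, ha⟩ = a := rfl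
      have e2 : algebraMap (integralClosure ℤ ℂ) ℂ 2 = 2 := map_ofNat _ 2
      rw [e1, e2]
      linear_combination hx
  have hx' : IsIntegral ℤ x := isIntegral_trans x hxA
  refine ⟨⟨x, hx'⟩, ⟨a - x, ha.sub hx'⟩, ?_, ?_⟩
  · show x + (a - x) = a
    ring
  · apply Subtype.ext
    show x * (a - x) = 2
    linear_combination (-1 : ℂ) * hx

end Integral

/-! ### The brick -/

theorem stab2 : Fermat.Agent.T1B.Top68.STAB2 := by
  intro M hM0 hM f hf 𝔪 h𝔪 h2 h3
  have : NeZero M := ⟨hM0.ne'⟩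
  obtain ⟨α, β, hsum, hprod⟩ := exists_roots (qCoeff f 2) (isIntegral_qCoeff_two hM hf)
  have key : ∀ α β : integralClosure ℤ ℂ, (α : ℂ) + (β : ℂ) = qCoeff f 2 → α * β = 2 →
      α ^ 2 - 1 ∉ 𝔪 →
      ∃ (f' : CuspForm (Gamma0 (4 * M)) 2) (α : integralClosure ℤ ℂ),
        f'.IsNormalizedEigenform ∧ (∀ ℓ : ℕ, ℓ.Prime → ℓ ≠ 2 → qCoeff f' ℓ = qCoeff f ℓ) ∧
          (α : ℂ) = qCoeff f' 2 ∧ α ∉ 𝔪 ∧ α ^ 2 - 1 ∉ 𝔪 := by
    intro α β hsum hprod hα
    have hprodC : (α : ℂ) * (β : ℂ) = 2 := by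
      have h := congrArg (fun x : integralClosure ℤ ℂ => (x : ℂ)) hprod
      exact h
    refine ⟨stab f (β : ℂ), α, isNormalizedEigenform_stab hM hf hsum hprodC, ?_, ?_, ?_, hα⟩
    · intro ℓ hℓ hℓ2
      exact qCoeff_stab_of_odd f β
        (fun h => hℓ2 ((Nat.prime_dvd_prime_iff_eq Nat.prime_two hℓ).mp h).symm)
    · exact (qCoeff_stab_two hf hsum).symm
    · intro hαm
      apply h2
      rw [← hprod]
      exact 𝔪.mul_mem_right β hαm
  by_cases hα : α ^ 2 - 1 ∈ 𝔪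
  · by_cases hβ : β ^ 2 - 1 ∈ 𝔪
    · exfalso
      apply h3
      have h4 : α ^ 2 * β ^ 2 = 4 := by rw [← mul_pow, hprod]; norm_num
      have e : (3 : integralClosure ℤ ℂ) = (α ^ 2 - 1) * β ^ 2 + (β ^ 2 - 1) := by
        linear_combination (-1 : integralClosure ℤ ℂ) * h4
      rw [e]
      exact 𝔪.add_mem (𝔪.mul_mem_right _ hα) hβ
    · exact key β α (by rw [add_comm]; exact hsum) (by rw [mul_comm]; exact hprod) hβ
  · exact key α β hsum hprod hα

end Fermat.Agent.T1B.U2Lower21.Stab2
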