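/-
T1B (helper21): discharge of `Top68.OLD2` from `Newform.goodEigensystemOccursAt_two_mul`, and the
bundle `Top68.OLD2 ∧ Top68.STAB2`.
-/
import Mathlib
import Fermat.Agent.T1B.U2Lower21.Newform
import Fermat.Agent.T1B.U2Lower21.Stab2
import Fermat.Agent.T1B.Top68.Iface

set_option autoImplicit false

namespace Fermat.Agent.T1B.U2Lower21.Old2

/-- **OLD2.** -/
theorem old2 : Fermat.Agent.T1B.Top68.OLD2 := by
  intro m hm0 hm g hg ha
  have : NeZero m := ⟨hm0.ne'⟩
  exact Fermat.Agent.T1B.U2Lower21.Newform.goodEigensystemOccursAt_two_mul m hm g hg ha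

end Fermat.Agent.T1B.U2Lower21.Old2
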